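/-
S29 row, M4b, **PIECE K3 — unconditional** (helper42).

`pieceK3 N p : M4b.PieceK3 N p`, from the K3 sub-skeleton (`pieceK3_of_dfrom`, this directory) and
the landed sub-piece K3-DFROM (`H282.exists_root_of_forall_dvd_ord`, helper282).
-/
import Fermat.Agent.S29.M4b.K3.Final
import Fermat.Agent.S29.H282.DFrom

set_option autoImplicit false

noncomputable section

open ModularCurve AlgebraicCurve CongruenceSubgroup UpperHalfPlane
open scoped MatrixGroups Manifold

namespace Fermat.Agent.S29.M4b.K3

open Fermat.Agent.S24 Fermat.Agent.S29 Fermat.Agent.S29.M4b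

/-- **K3-DFROM** (helper282's theorem in the shape of `Fin.lean`). -/
theorem dFromStatement (N : ℕ) [NeZero N] (p : ℕ) [NeZero p] : DFromStatement N p := by
  intro f hf hdvd
  obtain ⟨s, hs, hs0, V, hVm, -, hVg, hq, -⟩ :=
    H282.exists_root_of_forall_dvd_ord N p f.2 (fun h => hf (Subtype.ext h)) hdvd
  exact ⟨s, hs, hs0, V, hVm, hVg, hq⟩

/-- **K3-FIN**, unconditional. -/
theorem finStatement (N : ℕ) [NeZero N] (p : ℕ) [NeZero p] : FinStatement N p :=
  finStatement_of_dfrom N p (dFromStatement N p)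

/-- **PIECE K3** of sub-layer M4b (exact `Prop` of `M4b/Top.lean`), unconditional. -/
theorem pieceK3 (N : ℕ) [NeZero N] (p : ℕ) [NeZero p] : PieceK3 N p :=
  pieceK3_of_dfrom N p (dFromStatement N p)

end Fermat.Agent.S29.M4b.K3
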